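import Mathlib
import Fermat.Prelude.Def_ModularCurve_ArithmeticGalois
import Fermat.Prelude.Def_ModularCurve_X0ModL
import Fermat.Prelude.Def_AlgebraicCurve_Correspondence

/-!
# PROJECT D (S48), part B, Def layer, file 1: the `q`-model of `X₁(M)` (helper8, chief D / B)

Definitions only (plus the two membership lemmas needed to state the degeneracy maps); every block
of part B states its deliverables against these names (RULING D-2).

The model is the one of the Prelude's `X₀`: a subfield of `ℚ((q))`.  The moduli point at the cusp is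
`(E, P) = (Tate(q^M), q)`, `P` of exact order `M`.

* `tateX M a : PowerSeries ℤ`, `a : ZMod M` : the series `X(q^a, q^M)`, i.e.
  `(2πi)⁻² ℘(aτ; ℤ + Mτℤ) = tateX M a + 1/12`; coefficient of `q^n` is
  `∑_{d ∣ n} (n/d) ([d = a] + [d = -a] - 2 [d = 0])` (congruences in `ZMod M`);
* `eisenstein6`, `wNorm R = (E₄ E₆ / Δ)(q) ∈ R((q))` (weight `-2`), `frickeH R M a ∈ R((q))` : the Fricke
  function `h_a = (E₄E₆/Δ)(q^M) (12 X(q^a, q^M) + 1)`, a weight `0` function of `(E, ± aP)`;
* `F1 M : IntermediateField ℚ (LaurentSeries ℚ)` : generated by the `j(q^d)`, `d ∣ M`, and the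
  `h_a`, `a ≠ 0`; `full_le_F1 : modularFunctionFieldFull M ≤ F1 M`;
* `F1C k M : IntermediateField k (LaurentSeries k)` : generator free, the field generated by the
  reductions of the elements of `F1 M` with integral `q`-expansion (the residue field of the Gauss
  valuation);
* `F1Bar M`, `J1 M`, `J1C k M` : the `ℚ̄`-function field and the two Jacobians (`Pic0`); the Galois
  action on `J1 M` is the Prelude's instance (coefficientwise);
* `F1p M ℓ` : the function field of level `(M; ℓ)`, `alpha1`, `beta1 : F1 → F1p` over any `L`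
  (`beta1` = the substitution `q ↦ q^ℓ`);
* `CorrInputs`, `corrOp φ ψ = ψ_* ∘ φ^*` : the guarded `Pic0.correspondence`;
* `hecke1 L M ℓ = β_* α^*` (the standard `T_ℓ` : `(E,P) ↦ ∑_C (E/C, P mod C)`),
  `heckeStar1 L M ℓ = α_* β^*` (the Prelude's shape, `= ⟨ℓ⟩⁻¹ T_ℓ`);
* `IsDiamondAut L M d δ`, `diamondAut L M d`, `diamondPull1 L M d = ⟨d⟩^*`, `diamondPush1 = ⟨d⟩_*`.
-/

set_option autoImplicit false

noncomputable section

namespace Fermat.Agent.S48.B.Defs.Model

open ModularCurve HahnSeries IntermediateField AlgebraicCurve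

/-! ### The Tate series and the Fricke functions -/

/-- `X(q^a, q^M)`, the `x`-coordinate of the point `q^a` of the Tate curve `Tate(q^M)`:
the coefficient of `q^n` is `∑_{d ∣ n} (n/d) ([d ≡ a] + [d ≡ -a] - 2 [d ≡ 0])`. -/
def tateX (M : ℕ) (a : ZMod M) : PowerSeries ℤ :=
  PowerSeries.mk fun n => ∑ d ∈ n.divisors, ((n / d : ℕ) : ℤ) *
    ((if ((d : ℕ) : ZMod M) = a then 1 else 0) + (if ((d : ℕ) : ZMod M) = -a then 1 else 0)
      - 2 * (if ((d : ℕ) : ZMod M) = 0 then 1 else 0))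

/-- the normalised Eisenstein series `E₆ = 1 - 504 ∑ σ₅(n) q^n` -/
def eisenstein6 : PowerSeries ℤ :=
  PowerSeries.mk fun n => if n = 0 then 1 else -504 * ∑ d ∈ n.divisors, (d : ℤ) ^ 5

/-- the power series part of `E₄ E₆ / Δ = q⁻¹ (E₄ E₆ ∏ (1 - q^n)^{-24})` -/
def wNum : PowerSeries ℤ := eisenstein4 * eisenstein6 * dedekindEtaUnitInv

/-- `E₄ E₆ / Δ` (weight `-2`) as a Laurent series over any commutative ring -/
def wNorm (R : Type*) [CommRing R] : LaurentSeries R :=
  HahnSeries.single (-1 : ℤ) 1 * HahnSeries.ofPowerSeries ℤ R (wNum.map (Int.castRingHom R))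

/-- the Fricke function `h_a = (E₄E₆/Δ)(q^M) · (12 X(q^a, q^M) + 1)` of the pair
`(Tate(q^M), ± a·q)` -/
def frickeH (R : Type*) [CommRing R] (M : ℕ) [NeZero M] (a : ZMod M) : LaurentSeries R :=
  qExpand R M (wNorm R) *
    HahnSeries.ofPowerSeries ℤ R ((12 * tateX M a + 1).map (Int.castRingHom R))

/-! ### The function field in characteristic zero -/

/-- the generators `h_a`, `a ≠ 0` -/
def frickeGenerators (M : ℕ) [NeZero M] : Set (LaurentSeries ℚ) :=
  {x | ∃ a : ZMod M, a ≠ 0 ∧ x = frickeH ℚ M a}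

/-- **The function field of `X₁(M)` over `ℚ`** inside `ℚ((q))`. -/
def F1 (M : ℕ) [NeZero M] : IntermediateField ℚ (LaurentSeries ℚ) :=
  IntermediateField.adjoin ℚ (divisorExpansions M ∪ frickeGenerators M)

variable (M : ℕ) [NeZero M]

theorem frickeH_mem_F1 {a : ZMod M} (ha : a ≠ 0) : frickeH ℚ M a ∈ F1 M :=
  subset_adjoin ℚ _ (Or.inr ⟨a, ha, rfl⟩)

theorem jqd_mem_F1 {d : ℕ} [NeZero d] (hd : d ∣ M) : qExpand ℚ d jq ∈ F1 M :=
  subset_adjoin ℚ _ (Or.inl (mem_divisorExpansions M hd))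

/-- `ℚ(X₀(M)) ⊆ ℚ(X₁(M))` by construction -/
theorem full_le_F1 : modularFunctionFieldFull M ≤ F1 M :=
  IntermediateField.adjoin.mono ℚ _ _ Set.subset_union_left

/-! ### The function field in any characteristic -/

/-- the reductions of the elements of `F1 M` with integral `q`-expansion -/
def integralReductions (k : Type*) [Field k] : Set (LaurentSeries k) :=
  {x | ∃ y : LaurentSeries ℤ, coeffMap (Int.castRingHom ℚ) y ∈ F1 M ∧
    x = coeffMap (Int.castRingHom k) y}

/-- **The function field of `X₁(M)` over a field `k`** (meaningful when `M` is invertible in `k`):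
the residue field of the Gauss valuation, generated by the reductions of the integral elements. -/
def F1C (k : Type*) [Field k] : IntermediateField k (LaurentSeries k) :=
  IntermediateField.adjoin k (integralReductions M k)

theorem coeffMap_mem_F1C (k : Type*) [Field k] {y : LaurentSeries ℤ}
    (hy : coeffMap (Int.castRingHom ℚ) y ∈ F1 M) : coeffMap (Int.castRingHom k) y ∈ F1C M k :=
  subset_adjoin k _ ⟨y, hy, rfl⟩

/-! ### The Jacobians -/

/-- the function field of `X₁(M)` over `ℚ̄` -/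
abbrev F1Bar : IntermediateField (AlgebraicClosure ℚ) (LaurentSeries (AlgebraicClosure ℚ)) :=
  laurentBaseChange (AlgebraicClosure ℚ) (F1 M)

/-- **`J₁(M)(ℚ̄)`** -/
abbrev J1 : Type _ := Pic0 (AlgebraicClosure ℚ) (F1Bar M)

example : DistribMulAction (AlgebraicClosure ℚ ≃ₐ[ℚ] AlgebraicClosure ℚ) (J1 M) := inferInstance

/-- **`J₁(M)` over `k`** -/
abbrev J1C (k : Type*) [Field k] : Type _ := Pic0 k (F1C M k)

/-! ### Level `(M; ℓ)` and the degeneracy maps -/

variable (ℓ : ℕ) [NeZero ℓ]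

/-- the function field of level `Γ₁(M) ∩ Γ₀(ℓ)` : the compositum of `F1 M` and `F1 M (q^ℓ)` -/
def F1p : IntermediateField ℚ (LaurentSeries ℚ) :=
  F1 M ⊔ (F1 M).map (qExpandₐ ℓ)

theorem F1_le_F1p : F1 M ≤ F1p M ℓ := le_sup_left

theorem qExpand_mem_F1p {y : LaurentSeries ℚ} (hy : y ∈ F1 M) : qExpand ℚ ℓ y ∈ F1p M ℓ :=
  (le_sup_right : (F1 M).map (qExpandₐ ℓ) ≤ F1p M ℓ) ⟨y, hy, rfl⟩

section BaseChangeSupply

variable (L : Type*) [Field L] [Algebra ℚ L]

theorem laurentBaseChange_mono {F₀ F₁ : IntermediateField ℚ (LaurentSeries ℚ)} (h : F₀ ≤ F₁) :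
    laurentBaseChange L F₀ ≤ laurentBaseChange L F₁ := by
  refine IntermediateField.adjoin_le_iff.mpr ?_
  rintro _ ⟨y, hy, rfl⟩
  exact coeffEmb_mem_laurentBaseChange L (h hy)

theorem coeffEmb_qExpand (n : ℕ) [NeZero n] (x : LaurentSeries ℚ) :
    coeffEmb L (qExpand ℚ n x) = qExpand L n (coeffEmb L x) :=
  coeffMap_qExpand _ n x

variable {L} in
theorem qExpand_mem_laurentBaseChange {F₀ F₁ : IntermediateField ℚ (LaurentSeries ℚ)} (n : ℕ)
    [NeZero n] (hF : ∀ y ∈ F₀, qExpand ℚ n y ∈ F₁) {x : LaurentSeries L}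
    (hx : x ∈ laurentBaseChange L F₀) : qExpand L n x ∈ laurentBaseChange L F₁ := by
  rw [mem_laurentBaseChange_iff] at hx
  induction hx using Subfield.closure_induction with
  | mem y hy =>
      rcases hy with ⟨a, rfl⟩ | ⟨z, hz, rfl⟩
      · rw [algebraMap_laurentSeries_eq_single, qExpand_single, mul_zero,
          ← algebraMap_laurentSeries_eq_single]
        exact (laurentBaseChange L F₁).algebraMap_mem _
      · rw [← coeffEmb_qExpand]
        exact coeffEmb_mem_laurentBaseChange L (hF z hz)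
  | one => rw [map_one]; exact one_mem _
  | add x y _ _ hx hy => rw [map_add]; exact add_mem hx hy
  | neg x _ hx => rw [map_neg]; exact neg_mem hx
  | inv x _ hx => rw [map_inv₀]; exact inv_mem hx
  | mul x y _ _ hx hy => rw [map_mul]; exact mul_mem hx hy

end BaseChangeSupply

variable (L : Type*) [Field L] [Algebra ℚ L]

/-- `α` : the inclusion `L(X₁(M)) → L(X₁(M; ℓ))`, i.e. `(E, P, C) ↦ (E, P)` -/
def alpha1 : laurentBaseChange L (F1 M) →ₐ[L] laurentBaseChange L (F1p M ℓ) :=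
  IntermediateField.inclusion (laurentBaseChange_mono L (F1_le_F1p M ℓ))

@[simp]
theorem coe_alpha1 (x : laurentBaseChange L (F1 M)) :
    (alpha1 M ℓ L x : LaurentSeries L) = (x : LaurentSeries L) :=
  IntermediateField.coe_inclusion _ x

/-- `β` as a ring homomorphism : the substitution `q ↦ q^ℓ` -/
def beta1RingHom : laurentBaseChange L (F1 M) →+* laurentBaseChange L (F1p M ℓ) where
  toFun x := ⟨qExpand L ℓ (x : LaurentSeries L),
    qExpand_mem_laurentBaseChange ℓ (fun _ hy => qExpand_mem_F1p M ℓ hy) x.2⟩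
  map_one' := Subtype.ext (map_one (qExpand L ℓ))
  map_mul' _ _ := Subtype.ext (map_mul (qExpand L ℓ) _ _)
  map_zero' := Subtype.ext (map_zero (qExpand L ℓ))
  map_add' _ _ := Subtype.ext (map_add (qExpand L ℓ) _ _)

/-- `β` : the substitution `q ↦ q^ℓ`, i.e. `(E, P, C) ↦ (E/C, P mod C)` (at the cusp `C = μ_ℓ`) -/
def beta1 : laurentBaseChange L (F1 M) →ₐ[L] laurentBaseChange L (F1p M ℓ) :=
  { beta1RingHom M ℓ L with
    commutes' := fun a => Subtype.ext <| by
      show qExpand L ℓ (algebraMap L (LaurentSeries L) a) = algebraMap L (LaurentSeries L) a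
      rw [algebraMap_laurentSeries_eq_single, qExpand_single, mul_zero] }

@[simp]
theorem coe_beta1 (x : laurentBaseChange L (F1 M)) :
    (beta1 M ℓ L x : LaurentSeries L) = qExpand L ℓ (x : LaurentSeries L) :=
  rfl

/-! ### Guarded correspondences -/

section Corr

variable {K F F' : Type*} [Field K] [Field F] [Field F'] [Algebra K F] [Algebra K F']

/-- the hypotheses under which `Pic0.correspondence φ ψ = ψ_* ∘ φ^*` is defined -/
def CorrInputs (φ ψ : F →ₐ[K] F') : Prop :=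
  ∃ (hφ : φ.toRingHom.IsIntegral) (_ : ψ.toRingHom.IsIntegral)
    (_ : HasPrincipalDivisors K F') (hfin : FiniteAlong K ψ),
    FundamentalIdentityAlong K φ hφ ∧ NormFormulaAlong K ψ hfin

open Classical in
/-- `ψ_* ∘ φ^*` on `Pic0`, and `0` when the inputs are not available (the Prelude's
`heckeOperatorAlong` is `corrOp β α`) -/
def corrOp (φ ψ : F →ₐ[K] F') : Pic0 K F →+ Pic0 K F :=
  if h : CorrInputs φ ψ then
    haveI := h.snd.snd.fst
    Pic0.correspondence φ ψ h.fst h.snd.fst h.snd.snd.snd.snd.1 h.snd.snd.snd.fst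
      h.snd.snd.snd.snd.2
  else 0

theorem corrInputs_intro {φ ψ : F →ₐ[K] F'} (hφ : φ.toRingHom.IsIntegral)
    (hψ : ψ.toRingHom.IsIntegral) [hP : HasPrincipalDivisors K F']
    (hFI : FundamentalIdentityAlong K φ hφ) (hfin : FiniteAlong K ψ)
    (hN : NormFormulaAlong K ψ hfin) : CorrInputs φ ψ :=
  ⟨hφ, hψ, hP, hfin, hFI, hN⟩

theorem corrOp_eq {φ ψ : F →ₐ[K] F'} (hφ : φ.toRingHom.IsIntegral)
    (hψ : ψ.toRingHom.IsIntegral) [HasPrincipalDivisors K F']
    (hFI : FundamentalIdentityAlong K φ hφ) (hfin : FiniteAlong K ψ)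
    (hN : NormFormulaAlong K ψ hfin) :
    corrOp φ ψ = Pic0.correspondence φ ψ hφ hψ hFI hfin hN := by
  have h : CorrInputs φ ψ := corrInputs_intro hφ hψ hFI hfin hN
  rw [corrOp, dif_pos h]

theorem corrOp_of_not {φ ψ : F →ₐ[K] F'} (h : ¬ CorrInputs φ ψ) : corrOp φ ψ = 0 := by
  rw [corrOp, dif_neg h]

end Corr

/-! ### Hecke operators -/

/-- **The standard Hecke operator `T_ℓ = β_* ∘ α^*`** on `Pic0 L (L(X₁(M)))` :
`(E, P) ↦ ∑_C (E/C, P mod C)`. -/
def hecke1 : Pic0 L (laurentBaseChange L (F1 M)) →+ Pic0 L (laurentBaseChange L (F1 M)) :=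
  corrOp (alpha1 M ℓ L) (beta1 M ℓ L)

/-- **The dual Hecke operator `T_ℓ^* = α_* ∘ β^*`** (the shape of the Prelude's `heckeOperatorAlong`);
`T_ℓ^* = ⟨ℓ⟩⁻¹ T_ℓ`. -/
def heckeStar1 : Pic0 L (laurentBaseChange L (F1 M)) →+ Pic0 L (laurentBaseChange L (F1 M)) :=
  corrOp (beta1 M ℓ L) (alpha1 M ℓ L)

/-- `T_ℓ` on `J₁(M)(ℚ̄)`, indexed by primes (shape of the Prelude's `heckeOperatorBar`) -/
def hecke1Bar (r : Nat.Primes) : Module.End ℤ (J1 M) :=
  haveI : NeZero (r : ℕ) := ⟨r.2.ne_zero⟩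
  (hecke1 M r (AlgebraicClosure ℚ)).toIntLinearMap

/-- `T_ℓ^*` on `J₁(M)(ℚ̄)` -/
def heckeStar1Bar (r : Nat.Primes) : Module.End ℤ (J1 M) :=
  haveI : NeZero (r : ℕ) := ⟨r.2.ne_zero⟩
  (heckeStar1 M r (AlgebraicClosure ℚ)).toIntLinearMap

/-! ### Diamond operators -/

/-- `δ` is the diamond automorphism `⟨d⟩^*` of `L(X₁(M))` : it fixes the `j(q^e)`, `e ∣ M`, and sends
`h_a` to `h_{d a}` (on functions of `(E, P)` : `(δ y)(E, P) = y(E, d P)`). -/
def IsDiamondAut (d : (ZMod M)ˣ)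
    (δ : laurentBaseChange L (F1 M) ≃ₐ[L] laurentBaseChange L (F1 M)) : Prop :=
  (∀ (e : ℕ) (_ : NeZero e), e ∣ M → ∀ y : laurentBaseChange L (F1 M),
      (y : LaurentSeries L) = coeffEmb L (qExpand ℚ e jq) → δ y = y) ∧
    ∀ (a : ZMod M), a ≠ 0 → ∀ y y' : laurentBaseChange L (F1 M),
      (y : LaurentSeries L) = coeffEmb L (frickeH ℚ M a) →
      (y' : LaurentSeries L) = coeffEmb L (frickeH ℚ M ((d : ZMod M) * a)) → δ y = y'

open Classical in
/-- the diamond automorphism `⟨d⟩^*` of `L(X₁(M))` (the identity if it does not exist; existence and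
uniqueness are theorems of block B1) -/
def diamondAut (d : (ZMod M)ˣ) :
    laurentBaseChange L (F1 M) ≃ₐ[L] laurentBaseChange L (F1 M) :=
  if h : ∃ δ, IsDiamondAut M L d δ then h.choose else AlgEquiv.refl

theorem isDiamondAut_diamondAut {d : (ZMod M)ˣ} (h : ∃ δ, IsDiamondAut M L d δ) :
    IsDiamondAut M L d (diamondAut M L d) := by
  rw [diamondAut, dif_pos h]
  exact h.choose_spec

/-- **`⟨d⟩^*` on `Pic0`** : the pull-back of divisors under `(E, P) ↦ (E, d P)` -/
def diamondPull1 (d : (ZMod M)ˣ) :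
    Pic0 L (laurentBaseChange L (F1 M)) →+ Pic0 L (laurentBaseChange L (F1 M)) :=
  corrOp (diamondAut M L d).toAlgHom (AlgHom.id L _)

/-- **`⟨d⟩_* = ⟨d⁻¹⟩^*` on `Pic0`** : the push-forward of divisors under `(E, P) ↦ (E, d P)` -/
def diamondPush1 (d : (ZMod M)ˣ) :
    Pic0 L (laurentBaseChange L (F1 M)) →+ Pic0 L (laurentBaseChange L (F1 M)) :=
  diamondPull1 M L d⁻¹

/-- `⟨d⟩_*` on `J₁(M)(ℚ̄)` -/
def diamond1Bar (d : (ZMod M)ˣ) : Module.End ℤ (J1 M) :=
  (diamondPush1 M (AlgebraicClosure ℚ) d).toIntLinearMap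

end Fermat.Agent.S48.B.Defs.Model

end
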