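import Mathlib
import Fermat.Prelude.Def_ModularCurve_ReductionModL
import Fermat.Prelude.Def_FLTPrelim_Ramification
import Fermat.Prelude.Def_EllipticCurve_FrobeniusTrace
import Fermat.Agent.S48.B.Defs.Model

/-!
# PROJECT D (S48), part B, Def layer, file 2: reduction of places, generic in the pair of fields
(helper8, chief D / B)

Part 1 is the Prelude's `Def_ModularCurve_ReductionModL` (sections `Spec`, `SpecLemmas`, `Descent`,
`Total`, `Uniqueness`) with the pair `(modularFunctionFieldFull N, modularFunctionFieldFullC k N)`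
replaced by VARIABLES `(F₀ : IntermediateField ℚ (LaurentSeries ℚ))`,
`(Fk : IntermediateField k (LaurentSeries k))`; every name carries the suffix `G`
(`IsPlaceReductionAlongG A π F₀ Fk r`, `ReductionInputsAlongG A π F₀ Fk`, `reductionAlongG A π F₀ Fk`, ...).
Proofs are the Prelude's, verbatim.

Part 2 instantiates at `(F1 M, F1C M k)` and states the interface `HasReduction1` between the
geometric blocks (B2, B3, B4) and the Galois chain (B5): the `(R1)`-`(R4)` of
`Fermat.Agent.S37.ReductionJZero.HasReduction` for `J1 M`, with the diamond operator in `(R3')`.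
-/

set_option autoImplicit false

noncomputable section

namespace Fermat.Agent.S48.B.Defs.Reduction

open HahnSeries IntermediateField AlgebraicCurve ModularCurve

section Spec

variable {L : Type*} [Field L] [Algebra ℚ L] (A : ValuationSubring L)
variable {k : Type*} [Field k] (π : A →+* k)
variable (F₀ : IntermediateField ℚ (LaurentSeries ℚ)) (Fk : IntermediateField k (LaurentSeries k))

def IsPlaceReductionAlongG
    (r : Place L (laurentBaseChange L F₀) →
      Place k Fk) : Prop :=
  (∀ P, (r P).deg = P.deg) ∧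
    ∀ (y : LaurentSeries A)
      (hy : coeffMap A.subtype y ∈ laurentBaseChange L F₀)
      (hyk : coeffMap π y ∈ Fk),
      coeffMap π y ≠ 0 →
        ∀ D : Divisor L (laurentBaseChange L F₀),
          (∀ P, D P = P.ord (⟨coeffMap A.subtype y, hy⟩ : laurentBaseChange L F₀)) →
            ∀ Q, Finsupp.mapDomain r D Q = Q.ord (⟨coeffMap π y, hyk⟩ : Fk)

def integralPrincipalDivisorsG : Set (Divisor L (laurentBaseChange L F₀)) :=
  {D | ∃ (y : LaurentSeries A)
      (hy : coeffMap A.subtype y ∈ laurentBaseChange L F₀),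
      coeffMap π y ∈ Fk ∧ coeffMap π y ≠ 0 ∧
        ∀ P, D P = P.ord (⟨coeffMap A.subtype y, hy⟩ : laurentBaseChange L F₀)}

def PrincipalGeneratedByIntegralG : Prop :=
  Divisor.principal (K := L) (F := laurentBaseChange L F₀) ≤
    AddSubgroup.closure (integralPrincipalDivisorsG A π F₀ Fk)

def ReductionInputsAlongG : Prop :=
  ∃ r, IsPlaceReductionAlongG A π F₀ Fk r ∧ PrincipalGeneratedByIntegralG A π F₀ Fk

end Spec

section SpecLemmas

variable {L : Type*} [Field L] [Algebra ℚ L] {A : ValuationSubring L}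
variable {k : Type*} [Field k] {π : A →+* k}
variable {F₀ : IntermediateField ℚ (LaurentSeries ℚ)} {Fk : IntermediateField k (LaurentSeries k)}
variable {r : Place L (laurentBaseChange L F₀) →
  Place k Fk}

theorem IsPlaceReductionAlongG.deg_eq (hr : IsPlaceReductionAlongG A π F₀ Fk r)
    (P : Place L (laurentBaseChange L F₀)) : (r P).deg = P.deg :=
  hr.1 P

theorem IsPlaceReductionAlongG.isPrincipal_mapDomain (hr : IsPlaceReductionAlongG A π F₀ Fk r)
    {D : Divisor L (laurentBaseChange L F₀)}
    (hD : D ∈ integralPrincipalDivisorsG A π F₀ Fk) :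
    Divisor.IsPrincipal (Finsupp.mapDomain r D) := by
  obtain ⟨y, hy, hyk, hne, hDy⟩ := hD
  refine ⟨⟨coeffMap π y, hyk⟩, fun h => hne (congrArg Subtype.val h), fun Q => ?_⟩
  exact hr.2 y hy hyk hne D hDy Q

theorem degree_mapDomain_of_deg_eqG
    (hdeg : ∀ P, (r P).deg = P.deg)
    (D : Divisor L (laurentBaseChange L F₀)) :
    Divisor.degree (Finsupp.mapDomain r D) = Divisor.degree D := by
  induction D using Finsupp.induction with
  | zero => simp
  | single_add P n D _ _ ih =>
    rw [Finsupp.mapDomain_add, map_add, map_add, ih, Finsupp.mapDomain_single,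
      Divisor.degree_single, Divisor.degree_single, hdeg]

theorem mapDomain_mem_degZero_of_deg_eqG
    (hdeg : ∀ P, (r P).deg = P.deg)
    {D : Divisor L (laurentBaseChange L F₀)}
    (hD : D ∈ Divisor.degZero (K := L) (F := laurentBaseChange L F₀)) :
    Finsupp.mapDomain r D ∈ Divisor.degZero (K := k) (F := Fk) := by
  rw [Divisor.mem_degZero] at hD ⊢
  rw [degree_mapDomain_of_deg_eqG hdeg, hD]

theorem IsPlaceReductionAlongG.mapDomain_mem_principal (hr : IsPlaceReductionAlongG A π F₀ Fk r)
    (hgen : PrincipalGeneratedByIntegralG A π F₀ Fk)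
    {D : Divisor L (laurentBaseChange L F₀)}
    (hD : D ∈ Divisor.principal (K := L) (F := laurentBaseChange L F₀)) :
    Finsupp.mapDomain r D ∈ Divisor.principal (K := k) (F := Fk) := by
  have hD' := hgen hD
  clear hD
  induction hD' using AddSubgroup.closure_induction with
  | mem E hE => exact hr.isPrincipal_mapDomain hE
  | zero => rw [Finsupp.mapDomain_zero]; exact AddSubgroup.zero_mem _
  | add E E' _ _ hE hE' => rw [Finsupp.mapDomain_add]; exact AddSubgroup.add_mem _ hE hE'
  | neg E _ hE =>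
    rw [← Finsupp.mapDomain.addMonoidHom_apply, map_neg, Finsupp.mapDomain.addMonoidHom_apply]
    exact AddSubgroup.neg_mem _ hE

end SpecLemmas

section Descent

variable {L : Type*} [Field L] [Algebra ℚ L] {A : ValuationSubring L}
variable {k : Type*} [Field k] {π : A →+* k}
variable {F₀ : IntermediateField ℚ (LaurentSeries ℚ)} {Fk : IntermediateField k (LaurentSeries k)}
variable (r : Place L (laurentBaseChange L F₀) →
  Place k Fk)

def reductionDivAlongG :
    Divisor L (laurentBaseChange L F₀) →+ Divisor k Fk :=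
  Finsupp.mapDomain.addMonoidHom r

@[simp]
theorem reductionDivAlongG_apply (D : Divisor L (laurentBaseChange L F₀)) :
    reductionDivAlongG r D = Finsupp.mapDomain r D :=
  rfl

theorem reductionDivAlongG_single (P : Place L (laurentBaseChange L F₀)) (n : ℤ) :
    reductionDivAlongG r (Finsupp.single P n) = Finsupp.single (r P) n :=
  Finsupp.mapDomain_single

def reductionDegZeroAlongG (hdeg : ∀ P, (r P).deg = P.deg) :
    Divisor.degZero (K := L) (F := laurentBaseChange L F₀) →+
      Divisor.degZero (K := k) (F := Fk) :=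
  ((reductionDivAlongG r).domRestrict _).codRestrict _ fun D => mapDomain_mem_degZero_of_deg_eqG hdeg D.2

@[simp]
theorem coe_reductionDegZeroAlongG (hdeg : ∀ P, (r P).deg = P.deg)
    (D : Divisor.degZero (K := L) (F := laurentBaseChange L F₀)) :
    (reductionDegZeroAlongG r hdeg D : Divisor k Fk) =
      Finsupp.mapDomain r (D : Divisor L (laurentBaseChange L F₀)) :=
  rfl

def reductionPic0AlongG (hr : IsPlaceReductionAlongG A π F₀ Fk r) (hgen : PrincipalGeneratedByIntegralG A π F₀ Fk) :
    Pic0 L (laurentBaseChange L F₀) →+ Pic0 k Fk :=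
  QuotientAddGroup.map _ _ (reductionDegZeroAlongG r hr.1) (by
    rintro ⟨D, hD0⟩ hD
    simp only [AddSubgroup.mem_addSubgroupOf] at hD ⊢
    exact hr.mapDomain_mem_principal hgen hD)

theorem reductionPic0AlongG_mk (hr : IsPlaceReductionAlongG A π F₀ Fk r)
    (hgen : PrincipalGeneratedByIntegralG A π F₀ Fk)
    (D : Divisor.degZero (K := L) (F := laurentBaseChange L F₀)) :
    reductionPic0AlongG r hr hgen (Pic0.mk D) = Pic0.mk (reductionDegZeroAlongG r hr.1 D) :=
  rfl

end Descent

section Total

variable {L : Type*} [Field L] [Algebra ℚ L] (A : ValuationSubring L)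
variable {k : Type*} [Field k] (π : A →+* k)
variable (F₀ : IntermediateField ℚ (LaurentSeries ℚ)) (Fk : IntermediateField k (LaurentSeries k))

open Classical in

def reductionAlongG : Pic0 L (laurentBaseChange L F₀) →+ Pic0 k Fk :=
  if h : ReductionInputsAlongG A π F₀ Fk then reductionPic0AlongG h.choose h.choose_spec.1 h.choose_spec.2 else 0

variable {A π F₀ Fk}

theorem reductionAlongG_eq (h : ReductionInputsAlongG A π F₀ Fk) :
    reductionAlongG A π F₀ Fk = reductionPic0AlongG h.choose h.choose_spec.1 h.choose_spec.2 := by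
  rw [reductionAlongG, dif_pos h]

theorem reductionAlongG_mk (h : ReductionInputsAlongG A π F₀ Fk)
    (D : Divisor.degZero (K := L) (F := laurentBaseChange L F₀)) :
    reductionAlongG A π F₀ Fk (Pic0.mk D) = Pic0.mk (reductionDegZeroAlongG h.choose h.choose_spec.1.1 D) := by
  rw [reductionAlongG_eq h]
  rfl

theorem reductionAlongG_of_not (h : ¬ ReductionInputsAlongG A π F₀ Fk) : reductionAlongG A π F₀ Fk = 0 := by
  rw [reductionAlongG, dif_neg h]

end Total

section Uniqueness

variable {L : Type*} [Field L] [Algebra ℚ L] {A : ValuationSubring L}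
variable {k : Type*} [Field k] {π : A →+* k}
variable {F₀ : IntermediateField ℚ (LaurentSeries ℚ)} {Fk : IntermediateField k (LaurentSeries k)}

private theorem int_eq_zero_of_forall_dvdG {a : ℤ} (h : ∀ n : ℕ, n ≠ 0 → (n : ℤ) ∣ a) : a = 0 :=
  Int.eq_zero_of_dvd_of_natAbs_lt_natAbs (h (a.natAbs + 1) (Nat.succ_ne_zero _))
    (by rw [Int.natAbs_natCast]; exact Nat.lt_succ_self _)

theorem IsPlaceReductionAlongG.eq_or_const_of_agree
    {r₁ r₂ : Place L (laurentBaseChange L F₀) →
      Place k Fk}
    (hgen : PrincipalGeneratedByIntegralG A π F₀ Fk)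
    (hagree : ∀ D ∈ integralPrincipalDivisorsG A π F₀ Fk, Finsupp.mapDomain r₁ D = Finsupp.mapDomain r₂ D)
    (hdeg : ∀ P : Place L (laurentBaseChange L F₀), P.deg = 1)
    (hdiv : ∀ n : ℕ, n ≠ 0 → ∀ x : Pic0 L (laurentBaseChange L F₀),
      ∃ y : Pic0 L (laurentBaseChange L F₀), n • y = x) :
    r₁ = r₂ ∨ ∀ P Q, r₁ P = r₁ Q := by
  classical

  set δ : Divisor L (laurentBaseChange L F₀) →+
      Divisor k Fk :=
    Finsupp.mapDomain.addMonoidHom r₁ - Finsupp.mapDomain.addMonoidHom r₂ with hδ
  have hδapp : ∀ D, δ D = Finsupp.mapDomain r₁ D - Finsupp.mapDomain r₂ D := fun D => rfl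

  have hδprin : ∀ D ∈ Divisor.principal (K := L) (F := laurentBaseChange L F₀),
      δ D = 0 := by
    intro D hD
    have hD' := hgen hD
    clear hD
    induction hD' using AddSubgroup.closure_induction with
    | mem E hE => rw [hδapp, hagree E hE, sub_self]
    | zero => exact map_zero δ
    | add E E' _ _ hE hE' => rw [map_add, hE, hE', add_zero]
    | neg E _ hE => rw [map_neg, hE, neg_zero]

  have hδdeg0 : ∀ D ∈ Divisor.degZero (K := L) (F := laurentBaseChange L F₀),
      δ D = 0 := by
    intro D hD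
    ext Q
    rw [Finsupp.zero_apply]
    refine int_eq_zero_of_forall_dvdG fun n hn => ?_
    obtain ⟨y, hy⟩ := hdiv n hn (Pic0.mk ⟨D, hD⟩)
    obtain ⟨E, rfl⟩ := Pic0.mk_surjective y

    have hmem : ((⟨D, hD⟩ : Divisor.degZero (K := L) (F := laurentBaseChange L F₀))
        - n • E : Divisor.degZero (K := L) (F := laurentBaseChange L F₀)) ∈
          (Divisor.principal (K := L) (F := laurentBaseChange L F₀)).addSubgroupOf
            (Divisor.degZero (K := L) (F := laurentBaseChange L F₀)) := by
      rw [← QuotientAddGroup.eq_iff_sub_mem, QuotientAddGroup.mk_nsmul]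
      exact hy.symm
    rw [AddSubgroup.mem_addSubgroupOf, AddSubgroupClass.coe_sub, AddSubgroupClass.coe_nsmul] at hmem
    have h0 := hδprin _ hmem
    rw [map_sub, map_nsmul, sub_eq_zero] at h0
    refine ⟨δ (E : Divisor L (laurentBaseChange L F₀)) Q, ?_⟩
    rw [h0, Finsupp.smul_apply, nsmul_eq_mul]

  have hconst : ∀ P Q : Place L (laurentBaseChange L F₀),
      Finsupp.single (r₁ P) (1 : ℤ) - Finsupp.single (r₂ P) 1 =
        Finsupp.single (r₁ Q) 1 - Finsupp.single (r₂ Q) 1 := by
    intro P Q
    have hPQ : Finsupp.single P (1 : ℤ) - Finsupp.single Q 1 ∈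
        Divisor.degZero (K := L) (F := laurentBaseChange L F₀) := by
      rw [Divisor.mem_degZero, map_sub, Divisor.degree_single, Divisor.degree_single, hdeg, hdeg, sub_self]
    have h := hδdeg0 _ hPQ
    rw [hδapp, Finsupp.mapDomain_sub, Finsupp.mapDomain_sub, Finsupp.mapDomain_single,
      Finsupp.mapDomain_single, Finsupp.mapDomain_single, Finsupp.mapDomain_single, sub_eq_zero] at h
    exact sub_eq_sub_iff_sub_eq_sub.mpr h

  rw [or_iff_not_imp_left]
  intro hne
  obtain ⟨P₀, hP₀⟩ : ∃ P₀, r₁ P₀ ≠ r₂ P₀ := by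
    by_contra hall
    push Not at hall
    exact hne (funext hall)
  have hr₁const : ∀ Q, r₁ Q = r₁ P₀ := by
    intro Q
    have h := congrArg (fun E => E (r₁ P₀)) (hconst Q P₀)
    simp only [Finsupp.sub_apply, Finsupp.single_apply, if_neg (Ne.symm hP₀)] at h
    by_contra hQ
    rw [if_neg hQ] at h
    split_ifs at h <;> omega
  exact fun P Q => (hr₁const P).trans (hr₁const Q).symm

theorem IsPlaceReductionAlongG.eq_of_agree
    {r₁ r₂ : Place L (laurentBaseChange L F₀) →
      Place k Fk}
    (hgen : PrincipalGeneratedByIntegralG A π F₀ Fk)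
    (hagree : ∀ D ∈ integralPrincipalDivisorsG A π F₀ Fk, Finsupp.mapDomain r₁ D = Finsupp.mapDomain r₂ D)
    (hdeg : ∀ P : Place L (laurentBaseChange L F₀), P.deg = 1)
    (hprin0 : ∀ D ∈ Divisor.principal (K := L) (F := laurentBaseChange L F₀),
      Divisor.degree D = 0)
    (hdiv : ∀ n : ℕ, n ≠ 0 → ∀ x : Pic0 L (laurentBaseChange L F₀),
      ∃ y : Pic0 L (laurentBaseChange L F₀), n • y = x)
    (hnc : ∃ D ∈ Divisor.principal (K := L) (F := laurentBaseChange L F₀),
      Finsupp.mapDomain r₁ D ≠ 0) :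
    r₁ = r₂ := by
  rcases IsPlaceReductionAlongG.eq_or_const_of_agree hgen hagree hdeg hdiv with h | hconst
  · exact h
  obtain ⟨D, hDprin, hDne⟩ := hnc
  obtain ⟨P₀⟩ : Nonempty (Place L (laurentBaseChange L F₀)) := by
    by_contra hempty
    rw [not_nonempty_iff] at hempty
    exact hDne (by rw [Subsingleton.elim D 0, Finsupp.mapDomain_zero])
  exfalso
  apply hDne
  have hmapconst : ∀ D : Divisor L (laurentBaseChange L F₀),
      Finsupp.mapDomain r₁ D = Finsupp.single (r₁ P₀) (Divisor.degree D) := by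
    intro D
    induction D using Finsupp.induction with
    | zero => simp
    | single_add P n D _ _ ih =>
      rw [Finsupp.mapDomain_add, ih, Finsupp.mapDomain_single, hconst P P₀, map_add,
        Divisor.degree_single, hdeg, Nat.cast_one, mul_one, ← Finsupp.single_add, add_comm]
  rw [hmapconst D, hprin0 D hDprin, Finsupp.single_zero]

end Uniqueness


/-! ### Part 2: the instance `X₁(M)` and the interface to the Galois chain -/

open Fermat.Agent.S48.B.Defs.Model

section X1

variable (A : ValuationSubring (AlgebraicClosure ℚ)) (M : ℕ) [NeZero M]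

/-- the reduction inputs for `X₁(M)` at a valuation subring `A` of `ℚ̄` (seam [B-red]) -/
abbrev ReductionInputs1 : Prop :=
  ReductionInputsAlongG A (IsLocalRing.residue A) (F1 M) (F1C M (IsLocalRing.ResidueField A))

/-- **the reduction map `J₁(M)(ℚ̄) → J₁(M)(κ(A))`** (zero when the inputs are not available) -/
abbrev reduction1 : J1 M →+ J1C M (IsLocalRing.ResidueField A) :=
  reductionAlongG A (IsLocalRing.residue A) (F1 M) (F1C M (IsLocalRing.ResidueField A))

end X1

universe u

/-- **The interface `HasReduction1`** (twin of `S37.ReductionJZero.HasReduction`): what the geometric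
blocks deliver for one prime `ℓ ∤ M p` and one valuation subring `A` of `ℚ̄` over `ℓ`: an additive
group `X` (think `J1C M κ(A)`), `red : J1 M →+ X`, additive endomorphisms `Fb` (Frobenius push-forward),
`V` (Frobenius pull-back), `Dm` (the reduction of `⟨ℓ⟩_*`) of `X` with

* `hV`  : `V ∘ Fb = ℓ`;  `hDF`, `hDV` : `Dm` commutes with `Fb` and `V`;
* `R0`  : `red (⟨ℓ⟩_* x) = Dm (red x)`;
* `R1`  : `red` is invariant under the inertia subgroup at `A`;
* `R2`  : `red (σ • x) = Fb (red x)` for every Frobenius element `σ` at `A`;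
* `R3'` : `red (T_ℓ x) = Fb (red x) + V (Dm (red x))`, `T_ℓ = hecke1Bar M ℓ` the STANDARD operator;
* `R4`  : `red` is injective on `p`-power torsion. -/
def HasReduction1 (M p : ℕ) [NeZero M] (ℓ : ℕ) (hℓ : ℓ.Prime) (hℓM : ℓ.Coprime M)
    (A : ValuationSubring (AlgebraicClosure ℚ)) : Prop :=
  ∃ (X : Type u) (_ : AddCommGroup X) (red : J1 M →+ X) (Fb V Dm : X →+ X),
    (∀ y : X, V (Fb y) = ℓ • y) ∧
    (∀ y : X, Dm (Fb y) = Fb (Dm y)) ∧
    (∀ y : X, Dm (V y) = V (Dm y)) ∧
    (∀ x : J1 M, red (diamond1Bar M (ZMod.unitOfCoprime ℓ hℓM) x) = Dm (red x)) ∧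
    (∀ σ ∈ A.inertiaSubgroupIn ℚ, ∀ x : J1 M, red (σ • x) = red x) ∧
    (∀ σ : AlgebraicClosure ℚ ≃ₐ[ℚ] AlgebraicClosure ℚ, A.IsFrobeniusAt σ ℓ →
      ∀ x : J1 M, red (σ • x) = Fb (red x)) ∧
    (∀ x : J1 M, red (hecke1Bar M ⟨ℓ, hℓ⟩ x) = Fb (red x) + V (Dm (red x))) ∧
    (∀ x : J1 M, (∃ n : ℕ, p ^ n • x = 0) → red x = 0 → x = 0)

/-- the output of B2 + B3 + B4: `HasReduction1` at every prime `ℓ ∤ M p` and every valuation
subring over `ℓ` (twin of `S30.Arith.Torsion.HasReductionAll`) -/
def HasReduction1All (M p : ℕ) [NeZero M] : Prop :=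
  ∀ ℓ : ℕ, (hℓ : ℓ.Prime) → (hℓM : ℓ.Coprime M) → ℓ ≠ p →
    ∀ A : ValuationSubring (AlgebraicClosure ℚ), A.LiesOverPrime ℓ →
      HasReduction1.{0} M p ℓ hℓ hℓM A

end Fermat.Agent.S48.B.Defs.Reduction

end
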