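/-
PROJECT D (S48), part B, Def layer, file B0d: THE SPECIFICATION OF BLOCK B5 (helper17, leader B5).

Definitions and seams only.  Everything is stated against helper8's `Defs/Model.lean`
(`F1 M`, `J1 M`, `hecke1Bar`, `diamond1Bar`) and `Defs/Reduction.lean` (`HasReduction1All`).

* `IsParChar1`, `charGroup1 M` : the characters of `Γ₁(M)` killing the parabolic elements
  (no elliptic condition: `Γ₁(M)` is torsion free for `M ≥ 4`);
* `IsRepOf1 M g k a b` : the Laurent series `g` is represented by the pair `(a, b)` of forms of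
  weight `k` on `Γ₁(M)` (twin of `S24.RepHom.IsRepOf`);
* `FC1 M`, `IsPsiOf1`, `IsPhiOf1`, `PsiDict1`, `PhiDict1` : the analytic dictionary (twin of
  `S30.Spec`), seam [B-dict];
* `IsHeckeData1 M p D`, `IsDiamondData1 M d D` : `D` is a coset datum (`S30.Hecke.DoubleCoset`) over
  `Γ₁(M) → GL₂(ℝ)` with the STANDARD representatives of `T_p` (`[1, j; 0, p]`, `j < p`, and
  `σ_p [p, 0; 0, 1]`) resp. of `⟨d⟩` (`σ_d`); `σ_d ∈ Γ₀(M)` with lower right entry `d`;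
* `PhiHecke1`, `PhiDiamond1` : seam [B-heq], the dictionary intertwines `hecke1Bar M p` and
  `diamond1Bar M d` with the double coset operators on characters;
* `IsHeckeStarData1 M p D`, `PhiHeckeStar1` : the same for the DUAL operator `heckeStar1Bar M p`
  (`α_* β^*`, the Prelude's shape) and the double coset `Γ₁(M) [p, 0; 0, 1] Γ₁(M)`;
* `PeriodSeam1 M` : seam [B-per], EASY half only (RULING D-2 REV A): a `ℂ`-linear, INJECTIVE period map
  on `S₂(Γ₁(M))` with parabolic values, equivariant for every coset datum over `Γ₁(M)`;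
* `SmoothSeam1 M`, `GaloisCommSeam1 M`, `TorsionFinite1 M` : every point of `J1 M` has an open
  stabiliser; the operators commute with the Galois group; the torsion subgroups are finite;
* `ModEigenData`, `ResidualRepsModEigen M ℓ` : THE DELIVERABLE OF B5 = [B-S29'] in its mod `λ` form:
  a weight-two form on `Γ₁(M)` with nebentypus and integral `q`-expansion which is an eigenvector
  modulo `ker φ` has a residual representation with the expected characteristic polynomials.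
-/
import Mathlib
import Fermat.Agent.S48.B.Defs.Model
import Fermat.Agent.S48.B.Defs.Reduction
import Fermat.Agent.S20.IsMF
import Fermat.Agent.S23.QRing
import Fermat.Agent.S30.Analytic.Character
import Fermat.Agent.S30.Hecke.CharProduct
import Fermat.Prelude.Def_ModularCurve_PeriodMap
import Fermat.Prelude.Def_GaloisRep_Residual
import Fermat.Prelude.Def_ModularForm_HeckeOperator

set_option autoImplicit false

noncomputable section

namespace Fermat.Agent.S48.B.Defs.Spec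

open UpperHalfPlane ModularForm AlgebraicCurve ModularCurve CongruenceSubgroup Polynomial
open scoped Manifold MatrixGroups ModularForm
open Fermat.Agent.S20 Fermat.Agent.S23.QRing Fermat.Agent.S30.Analytic.Character
open Fermat.Agent.S30.Hecke.DoubleCoset Fermat.Agent.S30.Hecke.CharProduct
open Fermat.Agent.S48.B.Defs.Model Fermat.Agent.S48.B.Defs.Reduction

local notation "Kb" => AlgebraicClosure ℚ

local notation "Γℚ" => (AlgebraicClosure ℚ ≃ₐ[ℚ] AlgebraicClosure ℚ)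

local notation "Zbar" => integralClosure ℤ ℂ

/-! ### Characters of `Γ₁(M)` -/

section Characters

variable {M : ℕ}

/-- `ψ` kills the parabolic elements: same shape as the Prelude `IsParabolicHom`. -/
def IsParChar1 (ψ : Gamma1 M →* ℂˣ) : Prop :=
  ∀ γ : Gamma1 M, ((γ : SL(2, ℤ)) : Matrix (Fin 2) (Fin 2) ℤ).trace ^ 2 = 4 → ψ γ = 1

theorem IsParChar1.one : IsParChar1 (1 : Gamma1 M →* ℂˣ) := fun _ _ => rfl

theorem IsParChar1.mul {ψ ψ' : Gamma1 M →* ℂˣ} (h : IsParChar1 ψ) (h' : IsParChar1 ψ') :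
    IsParChar1 (ψ * ψ') := fun γ hγ => by
  rw [MonoidHom.mul_apply, h γ hγ, h' γ hγ, one_mul]

theorem IsParChar1.inv {ψ : Gamma1 M →* ℂˣ} (h : IsParChar1 ψ) : IsParChar1 ψ⁻¹ := fun γ hγ => by
  rw [MonoidHom.inv_apply, h γ hγ, inv_one]

variable (M) in
/-- the group `X` of parabolic characters of `Γ₁(M)` -/
def charGroup1 : Subgroup (Gamma1 M →* ℂˣ) where
  carrier := {ψ | IsParChar1 ψ}
  mul_mem' := fun h h' => h.mul h'
  one_mem' := IsParChar1.one
  inv_mem' := fun h => h.inv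

theorem mem_charGroup1 {ψ : Gamma1 M →* ℂˣ} : ψ ∈ charGroup1 M ↔ IsParChar1 ψ := Iff.rfl

end Characters

/-! ### Representatives -/

/-- `Γ₁(M)` inside `GL₂(ℝ)` -/
abbrev G1 (M : ℕ) : Subgroup (GL (Fin 2) ℝ) := (Gamma1 M : Subgroup (GL (Fin 2) ℝ))

/-- power series as Laurent series -/
abbrev ofPS1 : PowerSeries ℂ →+* LaurentSeries ℂ := HahnSeries.ofPowerSeries ℤ ℂ

/-- The pair `(a, b)` of forms of weight `k` on `Γ₁(M)` represents the Laurent series `g`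
(twin of `S24.RepHom.IsRepOf`). -/
structure IsRepOf1 (M : ℕ) (g : LaurentSeries ℂ) (k : ℤ) (a b : ℍ → ℂ) : Prop where
  ha : IsMF (G1 M) k a
  hb : IsMF (G1 M) k b
  hb0 : b ≠ 0
  eq : ofPS1 (qx a) = g * ofPS1 (qx b)

/-! ### The dictionary, seam [B-dict] -/

section Dictionary

variable (M : ℕ) [NeZero M]

/-- the function field of `X₁(M)` over `ℂ` in the Laurent model -/
abbrev FC1 : IntermediateField ℂ (LaurentSeries ℂ) := laurentBaseChange ℂ (F1 M)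

/-- **The analytic dictionary `Ψ` as a relation** (twin of `S30.Spec.IsPsiOf`). -/
def IsPsiOf1 (x : Pic0 ℂ (FC1 M)) (ψ : Gamma1 M →* ℂˣ) : Prop :=
  ∃ (n : ℕ) (D : Divisor.degZero (K := ℂ) (F := FC1 M)) (f : FC1 M) (k : ℤ) (a b : ℍ → ℂ),
    n ≠ 0 ∧ f ≠ 0 ∧ x = Pic0.mk D ∧
    (∀ v : Place ℂ (FC1 M), (n : ℤ) * (D : Divisor ℂ (FC1 M)) v = v.ord f) ∧
    IsRepOf1 M (f : LaurentSeries ℂ) k a b ∧
    IsRootChar (Gamma1 M) n k (a * b ^ (n - 1)) ψ

/-- **The dictionary `Φ = Ψ ∘ ext` on the `ℚ̄` side as a relation** (`ι : ℚ̄ →+* ℂ` fixed; twin of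
`S30.Spec.IsPhiOf`). -/
def IsPhiOf1 (ι : Kb →+* ℂ) (x : J1 M) (ψ : Gamma1 M →* ℂˣ) : Prop :=
  ∃ (n : ℕ) (D : Divisor.degZero (K := Kb) (F := F1Bar M)) (f : F1Bar M) (k : ℤ) (a b : ℍ → ℂ),
    n ≠ 0 ∧ f ≠ 0 ∧ x = Pic0.mk D ∧
    (∀ v : Place Kb (F1Bar M), (n : ℤ) * (D : Divisor Kb (F1Bar M)) v = v.ord f) ∧
    IsRepOf1 M (coeffMap ι (f : LaurentSeries Kb)) k a b ∧
    IsRootChar (Gamma1 M) n k (a * b ^ (n - 1)) ψ

/-- the dictionary over `ℂ` -/
structure PsiDict1 : Prop where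
  exists_of_torsion : ∀ x : Pic0 ℂ (FC1 M), (∃ n : ℕ, n ≠ 0 ∧ n • x = 0) → ∃ ψ, IsPsiOf1 M x ψ
  unique : ∀ x ψ ψ', IsPsiOf1 M x ψ → IsPsiOf1 M x ψ' → ψ = ψ'
  add : ∀ x y ψ ψ', IsPsiOf1 M x ψ → IsPsiOf1 M y ψ' → IsPsiOf1 M (x + y) (ψ * ψ')
  injective : ∀ x, IsPsiOf1 M x 1 → x = 0
  mem : ∀ x ψ, IsPsiOf1 M x ψ → ψ ∈ charGroup1 M ∧ IsOfFinOrder ψ
  surj : ∀ ψ, ψ ∈ charGroup1 M → IsOfFinOrder ψ → ∃ x, IsPsiOf1 M x ψ

/-- **seam [B-dict]** : the dictionary on the `ℚ̄` side (twin of `S30.Spec.PhiDict`) -/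
structure PhiDict1 (ι : Kb →+* ℂ) : Prop where
  exists_of_torsion : ∀ x : J1 M, (∃ n : ℕ, n ≠ 0 ∧ n • x = 0) → ∃ ψ, IsPhiOf1 M ι x ψ
  unique : ∀ x ψ ψ', IsPhiOf1 M ι x ψ → IsPhiOf1 M ι x ψ' → ψ = ψ'
  add : ∀ x y ψ ψ', IsPhiOf1 M ι x ψ → IsPhiOf1 M ι y ψ' → IsPhiOf1 M ι (x + y) (ψ * ψ')
  injective : ∀ x, IsPhiOf1 M ι x 1 → x = 0
  mem : ∀ x ψ, IsPhiOf1 M ι x ψ → ψ ∈ charGroup1 M ∧ IsOfFinOrder ψ
  surj : ∀ ψ, ψ ∈ charGroup1 M → IsOfFinOrder ψ → ∃ x, IsPhiOf1 M ι x ψ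

end Dictionary

/-! ### Coset data of `T_p` and `⟨d⟩`, seam [B-heq] -/

section Hecke

variable (M : ℕ)

/-- `δ ∈ Γ₀(M)` with lower right entry `≡ d` (the `σ_d` of the classical theory) -/
def IsSigma (δ : SL(2, ℤ)) (d : ZMod M) : Prop :=
  ((δ 1 0 : ℤ) : ZMod M) = 0 ∧ ((δ 1 1 : ℤ) : ZMod M) = d

/-- `D` is a coset datum of the Hecke operator `T_p` on `Γ₁(M)` with the STANDARD representatives
`[1, j; 0, p]` (`j < p`) and `σ_p [p, 0; 0, 1]`. -/
structure IsHeckeData1 (p : ℕ) (D : CosetData (incl (Gamma1 M)) (Option (Fin p))) : Prop where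
  rep_some : ∀ j : Fin p, D.rep (some j) = ModularForm.heckeMatrix p j
  rep_none : ∃ δ : SL(2, ℤ), IsSigma M δ (p : ZMod M) ∧
    D.rep none = Matrix.SpecialLinearGroup.mapGL ℝ δ * ModularForm.heckeDiagMatrix p

/-- `D` is a coset datum of the diamond operator `⟨d⟩` on `Γ₁(M)`: the single representative
`σ_d`. -/
def IsDiamondData1 (d : (ZMod M)ˣ) (D : CosetData (incl (Gamma1 M)) Unit) : Prop :=
  ∃ δ : SL(2, ℤ), IsSigma M δ (d : ZMod M) ∧ D.rep () = Matrix.SpecialLinearGroup.mapGL ℝ δ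

variable [NeZero M]

/-- **seam [B-heq], Hecke half** : `Φ` intertwines the STANDARD `T_p = hecke1Bar M p` (`p ∤ M`) on
`J1 M` and the double coset operator of `Γ₁(M) [1, 0; 0, p] Γ₁(M)` on characters. -/
def PhiHecke1 (ι : Kb →+* ℂ) : Prop :=
  ∀ (p : Nat.Primes), ¬ (p : ℕ) ∣ M →
    ∀ D : CosetData (incl (Gamma1 M)) (Option (Fin (p : ℕ))), IsHeckeData1 M p D →
      ∀ (x : J1 M) (ψ : Gamma1 M →* ℂˣ), IsPhiOf1 M ι x ψ →
        IsPhiOf1 M ι (hecke1Bar M p x) (D.heckeHomMul ψ)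

/-- **seam [B-heq], diamond half** : `Φ` intertwines `⟨d⟩_* = diamond1Bar M d` and conjugation by
`σ_d` on characters. -/
def PhiDiamond1 (ι : Kb →+* ℂ) : Prop :=
  ∀ (d : (ZMod M)ˣ) (D : CosetData (incl (Gamma1 M)) Unit), IsDiamondData1 M d D →
    ∀ (x : J1 M) (ψ : Gamma1 M →* ℂˣ), IsPhiOf1 M ι x ψ →
      IsPhiOf1 M ι (diamond1Bar M d x) (D.heckeHomMul ψ)

/-- existence of the coset data (twin of `S30.Hecke.Gamma0Cosets`) -/
def CosetSeam1 : Prop :=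
  (∀ p : ℕ, p.Prime → ¬ p ∣ M →
    ∃ D : CosetData (incl (Gamma1 M)) (Option (Fin p)), IsHeckeData1 M p D) ∧
  ∀ d : (ZMod M)ˣ, ∃ D : CosetData (incl (Gamma1 M)) Unit, IsDiamondData1 M d D

omit [NeZero M] in
/-- `s` is a system of representatives of `(Γ₁(M) ∩ Γ₀(p)) \ Γ₁(M)` (twin of
`S30.Hecke.NormEmbReps.IsSystem`) -/
def IsStarSystem1 (p : ℕ) {X : Type*} (s : X → SL(2, ℤ)) : Prop :=
  (∀ x, s x ∈ Gamma1 M) ∧ (∀ x y, s y * (s x)⁻¹ ∈ Gamma0 p → x = y) ∧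
    ∀ g ∈ Gamma1 M, ∃ x, g * (s x)⁻¹ ∈ Gamma0 p

omit [NeZero M] in
/-- `D` is a coset datum of the DUAL Hecke operator `T_p^* = ⟨p⟩⁻¹ T_p` on `Γ₁(M)`: representatives
`[p, 0; 0, 1] g_x`, `(g_x)` a system of representatives of `(Γ₁(M) ∩ Γ₀(p)) \ Γ₁(M)` (the shape of
`S30.Hecke.PhiEquivariant`). -/
def IsHeckeStarData1 (p : ℕ) {X : Type*} (D : CosetData (incl (Gamma1 M)) X) : Prop :=
  ∃ s : X → SL(2, ℤ), IsStarSystem1 M p s ∧
    ∀ x, D.rep x = ModularForm.heckeDiagMatrix p * Matrix.SpecialLinearGroup.mapGL ℝ (s x)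

/-- **seam [B-heq], dual Hecke half** : `Φ` intertwines `T_p^* = heckeStar1Bar M p` (`p ∤ M`) and the
double coset operator of `Γ₁(M) [p, 0; 0, 1] Γ₁(M)` on characters (the DIRECT twin of
`S30.Hecke.PhiEquivariant.isPhiOf_hecke`). -/
def PhiHeckeStar1 (ι : Kb →+* ℂ) : Prop :=
  ∀ (p : Nat.Primes), ¬ (p : ℕ) ∣ M →
    ∀ {X : Type} [Fintype X] (D : CosetData (incl (Gamma1 M)) X), IsHeckeStarData1 M p D →
      ∀ (x : J1 M) (ψ : Gamma1 M →* ℂˣ), IsPhiOf1 M ι x ψ →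
        IsPhiOf1 M ι (heckeStar1Bar M p x) (D.heckeHomMul ψ)

end Hecke

/-! ### Periods, seam [B-per] -/

section Periods

variable (M : ℕ) [NeZero M]

/-- **seam [B-per]**, EASY half (twin of `S21/Primitive`, `S21/Parabolic` and of
`S30.Hecke.PeriodEquivariance`): a `ℂ`-linear period map `P` on `S₂(Γ₁(M))` with values in the
parabolic homomorphisms, INJECTIVE, and equivariant for every coset datum over `Γ₁(M)` with
representatives of positive determinant: if `f' = ∑_x f ∣[2] rep x` then `P f' = D.heckeHom (P f)`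
(`(f ∣[2] α)(z) dz = f(α z) d(α z)` in Mathlib's normalisation of the slash action). -/
def PeriodSeam1 : Prop :=
  ∃ P : CuspForm (Gamma1 M) 2 →ₗ[ℂ] (Additive (Gamma1 M) →+ ℂ),
    (∀ f, P f ∈ ModularCurve.Period.parabolicHoms ℂ (Gamma1 M) ℂ) ∧
    (∀ f : CuspForm (Gamma1 M) 2, P f = 0 → f = 0) ∧
    (∀ {X : Type} [Fintype X] (D : CosetData (incl (Gamma1 M)) X) (f f' : CuspForm (Gamma1 M) 2),
      (∀ x, 0 < (D.rep x).det.val) → (⇑f' = ∑ x, ⇑f ∣[(2 : ℤ)] D.rep x) →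
        P f' = D.heckeHom (P f))

end Periods

/-! ### Galois side -/

section Galois

variable (M : ℕ) [NeZero M]

/-- every point of `J1 M` is fixed by an open subgroup of `Γℚ` (twin of `S30.Arith.Smooth`) -/
def SmoothSeam1 : Prop :=
  ∀ x : J1 M, ∃ L : IntermediateField ℚ Kb, FiniteDimensional ℚ L ∧
    ∀ σ : Γℚ, (∀ y ∈ L, σ y = y) → σ • x = x

/-- the operators commute with the Galois group (twin of `S30.Arith.HeckeGalois`) -/
def GaloisCommSeam1 : Prop :=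
  (∀ (p : Nat.Primes) (σ : Γℚ) (x : J1 M), hecke1Bar M p (σ • x) = σ • hecke1Bar M p x) ∧
  (∀ (p : Nat.Primes) (σ : Γℚ) (x : J1 M), heckeStar1Bar M p (σ • x) = σ • heckeStar1Bar M p x) ∧
  ∀ (d : (ZMod M)ˣ) (σ : Γℚ) (x : J1 M), diamond1Bar M d (σ • x) = σ • diamond1Bar M d x

/-- the `n`-torsion of `J1 M` is finite (twin of `S30.Final.PhiMap.finite_torsion`: from the
dictionary, `Γ₁(M)` being finitely generated) -/
def TorsionFinite1 : Prop :=
  ∀ n : ℕ, n ≠ 0 → Finite {x : J1 M // n • x = 0}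

end Galois

/-! ### The deliverable of B5 -/

section Top

variable (M : ℕ) [NeZero M]

/-- the unit `p mod M` for `p` prime to `M` -/
def unitOf (p : ℕ) (hp : p.Coprime M) : (ZMod M)ˣ := ZMod.unitOfCoprime p hp

/-- **A mod `λ` eigenform of weight two on `Γ₁(M)`** (`λ = ker φ`): a cusp form `h` with nebentypus
`ψ` and integral `q`-expansion `a`, nonzero modulo `λ`, with
`a_{np} + p ψ(p) a_{n/p} ≡ c_p a_n` modulo `λ` for all primes `p ∤ M` (the `q`-expansion of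
`T_p h - c_p h`). -/
structure ModEigenData {k : Type} [Field k] (φ : Zbar →+* k) (ψ : (ZMod M)ˣ →* Zbarˣ)
    (c : ℕ → Zbar) (h : CuspForm (Gamma1 M) 2) (a : ℕ → Zbar) : Prop where
  qexp : ∀ n : ℕ, ((a n : Zbar) : ℂ) = ModularFormClass.qCoeff h n
  ne_zero : ∃ n : ℕ, φ (a n) ≠ 0
  neb : ∀ (γ : SL(2, ℤ)), γ ∈ Gamma0 M → ∀ d : (ZMod M)ˣ, ((γ 1 1 : ℤ) : ZMod M) = d →
    ⇑h ∣[(2 : ℤ)] γ = ((((ψ d : Zbarˣ) : Zbar) : ℂ)) • ⇑h
  eigen : ∀ (p : ℕ) (_ : p.Prime) (hpM : p.Coprime M) (n : ℕ),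
    φ (a (n * p)) + (if p ∣ n then φ ((p : Zbar) * ((ψ (unitOf M p hpM) : Zbarˣ) : Zbar) *
      a (n / p)) else 0) = φ (c p) * φ (a n)

/-- **[B-S29'] in mod `λ` form, THE DELIVERABLE OF B5**: every mod `λ` eigenform of weight two on
`Γ₁(M)` has a residual representation, unramified outside `M ℓ`, with
`charpoly (Frob_p) = X² - φ(c_p) X + φ(p ψ(p))` at every `p ∤ M ℓ`. -/
def ResidualRepsModEigen (ℓ : ℕ) : Prop :=
  ∀ (k : Type) [Field k] [CharP k ℓ] (φ : Zbar →+* k) (ψ : (ZMod M)ˣ →* Zbarˣ)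
    (c : ℕ → Zbar) (h : CuspForm (Gamma1 M) 2) (a : ℕ → Zbar), ModEigenData M φ ψ c h a →
    ∃ ρ : ResidualGaloisRep k,
      (∀ p : ℕ, p.Prime → ¬ p ∣ M * ℓ → ρ.IsUnramifiedAt p) ∧
      ∀ (p : ℕ) (_ : p.Prime) (_ : ¬ p ∣ M * ℓ) (hpM : p.Coprime M)
        (A : ValuationSubring Kb), A.LiesOverPrime p →
        ∀ σ : Γℚ, A.IsFrobeniusAt σ p →
          LinearMap.charpoly (ρ.ρ σ) =
            X ^ 2 - C (φ (c p)) * X +
              C (φ ((p : Zbar) * ((ψ (unitOf M p hpM) : Zbarˣ) : Zbar)))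

/-- **The statement of the B5 assembly**: the seams of the other blocks give the deliverable.
`hred` = B2 + B3 + B4 (at every residue characteristic: the commutation of the operators on the
lattice is read off the torsion, RULING D-2 REV A (2)(d)), `hdict`, `hhecke`, `hdia`, `hcos` = B5
(dictionary and Hecke twin), `hper` = the easy half of S21', `hsm`, `hgal` = B5 (arithmetic twins).
If the geometric side delivers the relation for `heckeStar1Bar`, replace `PhiHecke1` by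
`PhiHeckeStar1`: the operator on `V` is then `diamond1Bar M p ∘ heckeStar1Bar M p`. -/
def AssemblyStatement (ℓ : ℕ) : Prop :=
  ℓ.Prime → ℓ ≠ 2 → 5 ≤ M → (∀ ℓ' : ℕ, ℓ'.Prime → HasReduction1All M ℓ') →
    (∃ ι : Kb →+* ℂ, PhiDict1 M ι ∧ PhiHecke1 M ι ∧ PhiDiamond1 M ι) →
    CosetSeam1 M → PeriodSeam1 M → SmoothSeam1 M → GaloisCommSeam1 M →
    ResidualRepsModEigen M ℓ

end Top

end Fermat.Agent.S48.B.Defs.Spec

end
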